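/-
Programme MAZ (S15), row 710 (F-D2'), parts (AP-mod) + (GF)  [helper61].

The plane model `Φ_p(j, j_p) = 0` of `X₀(p)` over `ℚbar` and the Galois action on its places:

* `PhiK p data : ℚbar[X][Y]`: the modular polynomial of the Prelude (`ModularPolynomialData.Φ`),
  with coefficients extended to `ℚbar`;
* `aevalAeval_PhiK`: `Φ_p(j, j_p) = 0` in `FF p = modularFunctionFieldBar p`
  (inner variable `X ↦ j = jF p`, outer variable `Y ↦ j_p = jpF p`);
* `adjoin_jF_jpF`: `ℚbar(j, j_p) = FF p` for `p` prime;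
* `smul_jdF`, `smul_sub_rat`: `j`, `j_p` (all `j_d`) and the rational constants are fixed by the
  arithmetic Galois action;
* `APAbs K F`: the generic statement (AP-abs) "a smooth point of the plane model carries at most
  one place" (helper75, dir `MAZ/AP75`), as a `Prop`;
* `galois_fixed_of_smooth`: **(GF)** a place of `FF p` centred at a smooth RATIONAL point `(a, b)`
  of `Φ_p = 0` is fixed by `Gal(ℚbar/ℚ)`.
-/
import Mathlib
import Fermat.Agent.X0.FracR
import Fermat.Prelude.Def_ModularCurve_ArithmeticGalois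

set_option autoImplicit false
set_option linter.unusedSectionVars false

open Polynomial AlgebraicCurve ModularCurve
open Fermat.Agent.X0
open scoped Polynomial.Bivariate

noncomputable section

namespace Fermat.Agent.MAZ.SmoothPt61

/-! ### Evaluating an integral bivariate polynomial -/

/-- Evaluation of `P ∈ ℤ[X][Y]` at a point of a `K`-algebra `A`, after extending the coefficients
to `K`, in `eval₂` form. -/
theorem aevalAeval_map_int {K A : Type*} [CommRing K] [CommRing A] [Algebra K A] (x y : A)
    (P : ℤ[X][Y]) :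
    (P.map (mapRingHom (Int.castRingHom K))).aevalAeval x y =
      P.eval₂ (eval₂RingHom (Int.castRingHom A) x) y := by
  have h : ((aevalAeval x y : K[X][Y] →ₐ[K] A) : K[X][Y] →+* A).comp
      (mapRingHom (mapRingHom (Int.castRingHom K))) =
      eval₂RingHom (eval₂RingHom (Int.castRingHom A) x) y := by
    ext <;> simp
  exact congr($h P)

/-- Ring homomorphisms commute with the evaluation of integral bivariate polynomials. -/
theorem map_eval₂_int {A B : Type*} [CommRing A] [CommRing B] (f : A →+* B) (x y : A)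
    (P : ℤ[X][Y]) :
    f (P.eval₂ (eval₂RingHom (Int.castRingHom A) x) y) =
      P.eval₂ (eval₂RingHom (Int.castRingHom B) (f x)) (f y) := by
  rw [Polynomial.hom_eval₂]
  congr 1
  ext <;> simp

variable (p : ℕ) [NeZero p]

/-- `j(q^p)` as an element of `FF p`. -/
abbrev jpF : FF p := jdF p p (dvd_refl p)

/-- The modular polynomial with coefficients in `ℚbar`. -/
def PhiK (data : ModularPolynomialData p) : Kbar[X][Y] :=
  data.Φ.map (mapRingHom (Int.castRingHom Kbar))

theorem coe_jF : ((jF p : FF p) : LaurentSeries Kbar) = coeffEmb Kbar jq := by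
  show coeffEmb Kbar (qExpand ℚ 1 jq) = coeffEmb Kbar jq
  rw [qExpand_one_apply]

theorem coe_jpF : ((jpF p : FF p) : LaurentSeries Kbar) = coeffEmb Kbar (jqN p) := rfl

theorem evalAtJ_eq : evalAtJ = eval₂RingHom (Int.castRingHom (LaurentSeries ℚ)) jq := by
  ext <;> simp [evalAtJ]

/-- **`Φ_p(j, j_p) = 0` in `FF p`.** -/
theorem aevalAeval_PhiK (data : ModularPolynomialData p) :
    (PhiK p data).aevalAeval (jF p) (jpF p) = 0 := by
  rw [PhiK, aevalAeval_map_int]
  apply Subtype.ext
  have h1 := map_eval₂_int (modularFunctionFieldBar p).val.toRingHom (jF p) (jpF p) data.Φ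
  have h2 := map_eval₂_int (coeffEmb Kbar) jq (jqN p) data.Φ
  rw [← evalAtJ_eq, data.eval_eq_zero, map_zero] at h2
  refine Eq.trans h1 ?_
  show data.Φ.eval₂ (eval₂RingHom (Int.castRingHom (LaurentSeries Kbar))
    ((jF p : FF p) : LaurentSeries Kbar)) ((jpF p : FF p) : LaurentSeries Kbar) = 0
  rw [coe_jF, coe_jpF]
  exact h2.symm

/-! ### Generation -/

theorem genSet_prime (hp : p.Prime) : genSet p = {jF p, jpF p} := by
  ext x
  constructor
  · rintro ⟨d, hne, hd, rfl⟩
    rcases (Nat.dvd_prime hp).mp hd with h | h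
    · subst h
      exact Or.inl rfl
    · subst h
      exact Or.inr rfl
  · rintro (rfl | rfl)
    · exact ⟨1, inferInstance, one_dvd p, rfl⟩
    · exact ⟨p, inferInstance, dvd_refl p, rfl⟩

/-- **`ℚbar(j, j_p) = FF p`.** -/
theorem adjoin_jF_jpF (hp : p.Prime) :
    IntermediateField.adjoin Kbar {jF p, jpF p} = (⊤ : IntermediateField Kbar (FF p)) := by
  rw [← genSet_prime p hp]
  exact (FracR.FF_eq_adjoin p).symm

/-! ### The Galois action on the coordinates -/

theorem smul_jdF (σ : Kbar ≃ₐ[ℚ] Kbar) (d : ℕ) [NeZero d] (hd : d ∣ p) :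
    arithmeticGalois (modularFunctionFieldFull p) σ • jdF p d hd = jdF p d hd := by
  apply Subtype.ext
  rw [coe_arithmeticGalois_smul]
  exact coeffMap_coeffEmb σ _

theorem smul_ratConst (σ : Kbar ≃ₐ[ℚ] Kbar) (a : ℚ) :
    arithmeticGalois (modularFunctionFieldFull p) σ •
        algebraMap Kbar (FF p) (algebraMap ℚ Kbar a) =
      algebraMap Kbar (FF p) (algebraMap ℚ Kbar a) := by
  rw [SemilinearAut.smul_algebraMap]
  congr 1
  exact σ.commutes a

theorem smul_jdF_sub_rat (σ : Kbar ≃ₐ[ℚ] Kbar) (d : ℕ) [NeZero d] (hd : d ∣ p) (a : ℚ) :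
    arithmeticGalois (modularFunctionFieldFull p) σ •
        (jdF p d hd - algebraMap Kbar (FF p) (algebraMap ℚ Kbar a)) =
      jdF p d hd - algebraMap Kbar (FF p) (algebraMap ℚ Kbar a) := by
  rw [smul_sub, smul_jdF, smul_ratConst]

/-- The orders of `j_d - a` (`a` rational) at `σ • w` and at `w` agree. -/
theorem ord_smul_jdF_sub_rat (σ : Kbar ≃ₐ[ℚ] Kbar) (w : Place Kbar (FF p)) (d : ℕ) [NeZero d]
    (hd : d ∣ p) (a : ℚ) :
    (arithmeticGalois (modularFunctionFieldFull p) σ • w).ord
        (jdF p d hd - algebraMap Kbar (FF p) (algebraMap ℚ Kbar a)) =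
      w.ord (jdF p d hd - algebraMap Kbar (FF p) (algebraMap ℚ Kbar a)) := by
  have h := SemilinearAut.ord_smul (arithmeticGalois (modularFunctionFieldFull p) σ) w
    (jdF p d hd - algebraMap Kbar (FF p) (algebraMap ℚ Kbar a))
  rwa [smul_jdF_sub_rat] at h

/-! ### (AP-abs) as a proposition, and (GF) -/

/-- **(AP-abs)** (helper75, `MAZ/AP75`), one orientation: if `b` is a SIMPLE root of `Φ(a, Y)`
(`∂Φ/∂Y (a, b) ≠ 0`, `Y` the outer variable), the point `(a, b)` of the plane model `Φ(x, y) = 0`
of the function field `F = K(x, y)` carries at most one place. -/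
def APAbs (K F : Type*) [Field K] [Field F] [Algebra K F] : Prop :=
  ∀ (x y : F), IntermediateField.adjoin K {x, y} = ⊤ →
    ∀ Φ : K[X][Y], Φ.aevalAeval x y = 0 →
      ∀ a b : K, (derivative Φ).evalEval a b ≠ 0 →
        ∀ v w : Place K F,
          0 < v.ord (x - algebraMap K F a) → 0 < v.ord (y - algebraMap K F b) →
          0 < w.ord (x - algebraMap K F a) → 0 < w.ord (y - algebraMap K F b) → v = w

/-- The other orientation of (AP-abs) follows by exchanging the variables: `∂Φ/∂X (a, b) ≠ 0`
is expressed as `(derivative (swap Φ)).evalEval b a ≠ 0`. -/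
theorem APAbs.swap {K F : Type*} [Field K] [Field F] [Algebra K F] (hAP : APAbs K F)
    (x y : F) (hxy : IntermediateField.adjoin K {x, y} = ⊤) (Φ : K[X][Y])
    (hΦ : Φ.aevalAeval x y = 0) (a b : K)
    (hsm : (derivative (Bivariate.swap Φ)).evalEval b a ≠ 0) (v w : Place K F)
    (hva : 0 < v.ord (x - algebraMap K F a)) (hvb : 0 < v.ord (y - algebraMap K F b))
    (hwa : 0 < w.ord (x - algebraMap K F a)) (hwb : 0 < w.ord (y - algebraMap K F b)) : v = w := by
  refine hAP y x ?_ (Bivariate.swap Φ) ?_ b a hsm v w hvb hva hwb hwa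
  · rw [Set.pair_comm]; exact hxy
  · rw [Bivariate.aevalAeval_swap]; exact hΦ

/-- Both orientations. -/
theorem APAbs.both {K F : Type*} [Field K] [Field F] [Algebra K F] (hAP : APAbs K F)
    (x y : F) (hxy : IntermediateField.adjoin K {x, y} = ⊤) (Φ : K[X][Y])
    (hΦ : Φ.aevalAeval x y = 0) (a b : K)
    (hsm : (derivative Φ).evalEval a b ≠ 0 ∨ (derivative (Bivariate.swap Φ)).evalEval b a ≠ 0)
    (v w : Place K F)
    (hva : 0 < v.ord (x - algebraMap K F a)) (hvb : 0 < v.ord (y - algebraMap K F b))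
    (hwa : 0 < w.ord (x - algebraMap K F a)) (hwb : 0 < w.ord (y - algebraMap K F b)) : v = w := by
  rcases hsm with h | h
  · exact hAP x y hxy Φ hΦ a b h v w hva hvb hwa hwb
  · exact hAP.swap x y hxy Φ hΦ a b h v w hva hvb hwa hwb

/-- **(GF)**: a place of `FF p` centred at a smooth rational point `(a, b)` of the plane model
`Φ_p(j, j_p) = 0` is fixed by the arithmetic Galois action. -/
theorem galois_fixed_of_smooth (hAP : APAbs Kbar (FF p)) (hp : p.Prime)
    (data : ModularPolynomialData p) (a b : ℚ)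
    (hsm : (derivative (PhiK p data)).evalEval (algebraMap ℚ Kbar a) (algebraMap ℚ Kbar b) ≠ 0 ∨
      (derivative (Bivariate.swap (PhiK p data))).evalEval
        (algebraMap ℚ Kbar b) (algebraMap ℚ Kbar a) ≠ 0)
    (w : Place Kbar (FF p))
    (hwa : 0 < w.ord (jF p - algebraMap Kbar (FF p) (algebraMap ℚ Kbar a)))
    (hwb : 0 < w.ord (jpF p - algebraMap Kbar (FF p) (algebraMap ℚ Kbar b)))
    (σ : Kbar ≃ₐ[ℚ] Kbar) :
    arithmeticGalois (modularFunctionFieldFull p) σ • w = w := by
  refine hAP.both (jF p) (jpF p) (adjoin_jF_jpF p hp) (PhiK p data) (aevalAeval_PhiK p data)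
    (algebraMap ℚ Kbar a) (algebraMap ℚ Kbar b) hsm _ _ ?_ ?_ hwa hwb
  · have := ord_smul_jdF_sub_rat p σ w 1 (one_dvd p) a
    exact this ▸ hwa
  · have := ord_smul_jdF_sub_rat p σ w p (dvd_refl p) b
    exact this ▸ hwb

/-! ### Bridging lemmas: other forms of the smoothness hypothesis -/

section Bridge

variable {R S : Type*} [CommRing R] [CommRing S]

/-- `∂Φ/∂Y (a, b)` is the derivative of `Φ(a, Y)` at `b`. -/
theorem derivative_evalEval_eq (Φ : R[X][Y]) (a b : R) :
    (derivative Φ).evalEval a b = (derivative (Φ.map (evalRingHom a))).eval b := by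
  rw [derivative_map, map_evalRingHom_eval]

/-- Specialising the inner variable of `swap Φ` is specialising the outer variable of `Φ`. -/
theorem swap_map_evalRingHom (Φ : R[X][Y]) (b : R) :
    (Bivariate.swap Φ).map (evalRingHom b) = Φ.eval (C b) := by
  induction Φ using Polynomial.induction_on' with
  | add P Q hP hQ => rw [map_add, Polynomial.map_add, hP, hQ, eval_add]
  | monomial n f =>
    rw [Bivariate.swap_monomial, Polynomial.map_mul, Polynomial.map_map, eval_monomial,
      Polynomial.map_C]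
    have h1 : (evalRingHom b).comp (C : R →+* R[X]) = RingHom.id R := by
      ext r; simp
    rw [h1, Polynomial.map_id]
    simp

/-- `∂Φ/∂X (a, b)` (written with `swap`) is the derivative of `Φ(X, b)` at `a`. -/
theorem derivative_swap_evalEval_eq (Φ : R[X][Y]) (a b : R) :
    (derivative (Bivariate.swap Φ)).evalEval b a = (derivative (Φ.eval (C b))).eval a := by
  rw [derivative_evalEval_eq, swap_map_evalRingHom]

theorem map_map_evalRingHom (f : R →+* S) (Φ : R[X][Y]) (a : R) :
    (Φ.map (mapRingHom f)).map (evalRingHom (f a)) = (Φ.map (evalRingHom a)).map f := by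
  rw [Polynomial.map_map, Polynomial.map_map]
  congr 1
  ext <;> simp

theorem map_eval_C (f : R →+* S) (Φ : R[X][Y]) (b : R) :
    (Φ.map (mapRingHom f)).eval (C (f b)) = (Φ.eval (C b)).map f := by
  rw [← Polynomial.map_C, map_mapRingHom_eval_map]

end Bridge

/-- The modular polynomial with coefficients in `ℚ`. -/
def PhiQ (data : ModularPolynomialData p) : ℚ[X][Y] :=
  data.Φ.map (mapRingHom (Int.castRingHom ℚ))

theorem PhiK_eq_map (data : ModularPolynomialData p) :
    PhiK p data = (PhiQ p data).map (mapRingHom (algebraMap ℚ Kbar)) := by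
  rw [PhiK, PhiQ, Polynomial.map_map]
  congr 1
  ext <;> simp

/-- `b` a simple root of `Φ_p(a, Y)` over `ℚ` gives the first smoothness condition. -/
theorem smoothY_of_rat (data : ModularPolynomialData p) (a b : ℚ)
    (h : (derivative ((PhiQ p data).map (evalRingHom a))).eval b ≠ 0) :
    (derivative (PhiK p data)).evalEval (algebraMap ℚ Kbar a) (algebraMap ℚ Kbar b) ≠ 0 := by
  rw [derivative_evalEval_eq, PhiK_eq_map, map_map_evalRingHom, derivative_map, eval_map,
    eval₂_at_apply]
  exact fun h0 => h ((map_eq_zero (algebraMap ℚ Kbar)).mp h0)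

/-- `a` a simple root of `Φ_p(X, b)` over `ℚ` gives the second smoothness condition. -/
theorem smoothX_of_rat (data : ModularPolynomialData p) (a b : ℚ)
    (h : (derivative ((PhiQ p data).eval (C b))).eval a ≠ 0) :
    (derivative (Bivariate.swap (PhiK p data))).evalEval
      (algebraMap ℚ Kbar b) (algebraMap ℚ Kbar a) ≠ 0 := by
  rw [derivative_swap_evalEval_eq, PhiK_eq_map, map_eval_C, derivative_map, eval_map,
    eval₂_at_apply]
  exact fun h0 => h ((map_eq_zero (algebraMap ℚ Kbar)).mp h0)

/-- **(GF)**, with the smoothness hypothesis over `ℚ` in one-variable form: `b` is a simple root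
of `Φ_p(a, Y)` or `a` is a simple root of `Φ_p(X, b)`. -/
theorem galois_fixed_of_simple_root (hAP : APAbs Kbar (FF p)) (hp : p.Prime)
    (data : ModularPolynomialData p) (a b : ℚ)
    (hsm : (derivative ((PhiQ p data).map (evalRingHom a))).eval b ≠ 0 ∨
      (derivative ((PhiQ p data).eval (C b))).eval a ≠ 0)
    (w : Place Kbar (FF p))
    (hwa : 0 < w.ord (jF p - algebraMap Kbar (FF p) (algebraMap ℚ Kbar a)))
    (hwb : 0 < w.ord (jpF p - algebraMap Kbar (FF p) (algebraMap ℚ Kbar b)))
    (σ : Kbar ≃ₐ[ℚ] Kbar) :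
    arithmeticGalois (modularFunctionFieldFull p) σ • w = w :=
  galois_fixed_of_smooth p hAP hp data a b
    (hsm.imp (smoothY_of_rat p data a b) (smoothX_of_rat p data a b)) w hwa hwb σ

end Fermat.Agent.MAZ.SmoothPt61
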