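/-
Programme MAZ (S15), row 710 (F-D2'), (NP-Phi) part (A): the modular polynomial of prime level as
a `ModularPolynomialData p` of the Prelude  [helper61].

* `exists_data (hp : p.Prime)`: there is `data : ModularPolynomialData p` whose polynomial `Φ`
  becomes `ModPoly3.PsiZ p = (Y - j(q^p)) · annPoly p j ∈ ℤ((q))[Y]` when the inner variable is
  evaluated at `j(q)`.
-/
import Mathlib
import Fermat.Agent.IG.AN.ModPoly3
import Fermat.Prelude.Thm_ModularCurve_coeffMap_qExpand

set_option autoImplicit false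

open Polynomial ModularCurve
open Fermat.Agent.X0 Fermat.Agent.IG.AN Fermat.Agent.IG.PR

noncomputable section

namespace Fermat.Agent.MAZ.SmoothPt61

variable (p : ℕ) [NeZero p]

theorem dedekindPsi_prime' {p : ℕ} (hp : p.Prime) : dedekindPsi p = p + 1 := by
  have h := G1Index.g1i_psi_prime_pow hp one_pos
  simpa using h

/-- Extending the coefficients of `evalAt ℤ (jqModC ℤ)` to `ℚ` gives the Prelude's `evalAtJ`. -/
theorem coeffMap_comp_evalAt :
    (coeffMap (Int.castRingHom ℚ)).comp (Interface20.evalAt ℤ (jqModC ℤ)) = evalAtJ := by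
  apply Polynomial.ringHom_ext
  · intro a
    simp [Interface20.evalAt, evalAtJ]
  · simp only [Interface20.evalAt, evalAtJ, RingHom.comp_apply, coe_eval₂RingHom, eval₂_X,
      AlgHom.toRingHom_eq_coe, RingHom.coe_coe, aeval_X]
    rw [coeffMap_jqModC, jqModC_rat]

/-- **The modular polynomial of prime level `p` as Prelude data**, together with its
characterisation over `ℤ((q))`. -/
theorem exists_data (hp : p.Prime) :
    ∃ data : ModularPolynomialData p,
      data.Φ.map (Interface20.evalAt ℤ (jqModC ℤ)) = ModPoly3.PsiZ p := by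
  have hl : ModPoly3.PsiZ p ∈ Polynomial.lifts (Interface20.evalAt ℤ (jqModC ℤ)) := by
    rw [Polynomial.lifts_iff_coeff_lifts]
    intro n
    obtain ⟨P, hP⟩ := ModPoly3.exists_int_aeval_eq_coeff p hp n
    exact ⟨P, hP.symm⟩
  obtain ⟨Φ, hmap, hdeg, hmonic⟩ :=
    Polynomial.lifts_and_natDegree_eq_and_monic hl (ModPoly3.PsiZ_monic p)
  refine ⟨⟨Φ, hmonic, by rw [hdeg, ModPoly3.PsiZ_natDegree, dedekindPsi_prime' hp], ?_⟩, hmap⟩
  have h0 : Φ.eval₂ (Interface20.evalAt ℤ (jqModC ℤ)) (qExpand ℤ p (jqModC ℤ)) = 0 := by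
    rw [← Polynomial.eval_map, hmap]
    exact ModPoly3.PsiZ_eval p
  have h1 := congrArg (coeffMap (Int.castRingHom ℚ)) h0
  rw [Polynomial.hom_eval₂, map_zero, coeffMap_comp_evalAt, ModularCurve.coeffMap_qExpand,
    coeffMap_jqModC, jqModC_rat] at h1
  exact h1

end Fermat.Agent.MAZ.SmoothPt61
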