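/-
Programme MAZ (S15), row 710 (F-D2'), part (AP-abs), elementary proof  [helper61].

`apAbs : APAbs K F`: let `F = K(x, y)` with `Φ(x, y) = 0`, and let `(a, b) ∈ K²` be a point with
`∂Φ/∂Y (a, b) ≠ 0`.  Then there is at most one place of `F/K` centred at `(a, b)`.

Proof (no localisation, no Noetherian/DVR theory).  Put `t = x - a`, `s = y - b`, `ev = aevalAeval x y`.
* first order Taylor expansion: every `P ∈ K[X][Y]` is `P(a,b) + (X-a) q + (Y-b) P₂` with
  `P₂(a,b) = ∂P/∂Y (a,b)`;  applied to `Φ`: `s · ev B = - t · ev q` with `B(a,b) ≠ 0`;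
* `ev U` is a unit at every place centred at `(a, b)` if `U(a, b) ≠ 0`;
* key lemma (induction on `ord_v (ev P)`): for every `P` with `ev P ≠ 0` there are `m`, `U₁`, `U₂`
  with `U_i(a,b) ≠ 0` and `ev P · ev U₂ = t ^ m · ev U₁`;  the conclusion does not mention `v`, so
  `ord_w (ev P) = m · ord_w t` at EVERY place `w` centred at `(a, b)`;
* `F = Frac K[x, y]`, so the valuation rings of `v` and `w` coincide.
-/
import Mathlib
import Fermat.Agent.X0.FFDict
import Fermat.Agent.MAZ.SmoothPt61.Main

set_option autoImplicit false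
set_option linter.unusedSectionVars false

open Polynomial AlgebraicCurve
open scoped Polynomial.Bivariate

noncomputable section

namespace Fermat.Agent.MAZ.SmoothPt61.APElem

open Fermat.Agent.X0.FF

/-! ### Polynomial algebra -/

section Poly

variable {R : Type*} [CommRing R]

/-- If `p - p(r) = (X - r) q` then `q(r) = p'(r)`. -/
theorem eval_quot_eq_derivative {p q : R[X]} {r : R} (h : p - C (p.eval r) = (X - C r) * q) :
    q.eval r = (derivative p).eval r := by
  have h' := congrArg derivative h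
  rw [derivative_sub, derivative_C, sub_zero, derivative_mul, derivative_sub, derivative_X,
    derivative_C, sub_zero, one_mul] at h'
  rw [h', eval_add, eval_mul, eval_sub, eval_X, eval_C, sub_self, zero_mul, add_zero]

/-- First order Taylor expansion of a bivariate polynomial at `(a, b)`. -/
theorem exists_taylor_one (P : R[X][Y]) (a b : R) :
    ∃ (q : R[X]) (P₂ : R[X][Y]),
      P = C (C (P.evalEval a b)) + C ((X - C a) * q) + (Y - C (C b)) * P₂ ∧
      P₂.evalEval a b = (derivative P).evalEval a b := by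
  obtain ⟨P₂, h2⟩ := X_sub_C_dvd_sub_C_eval (a := (C b : R[X])) (p := P)
  obtain ⟨q, h1⟩ := X_sub_C_dvd_sub_C_eval (a := a) (p := P.eval (C b))
  refine ⟨q, P₂, ?_, congrArg (eval a) (eval_quot_eq_derivative h2)⟩
  have e1 : P = C (P.eval (C b)) + (X - C (C b)) * P₂ := by rw [← h2]; ring
  have e2 : P.eval (C b) = C ((P.eval (C b)).eval a) + (X - C a) * q := by rw [← h1]; ring
  calc P = C (P.eval (C b)) + (X - C (C b)) * P₂ := e1
    _ = C (C ((P.eval (C b)).eval a) + (X - C a) * q) + (X - C (C b)) * P₂ := by rw [← e2]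
    _ = _ := by rw [C_add]

end Poly

/-! ### Places centred at a point -/

section Place

variable {K F : Type*} [Field K] [Field F] [Algebra K F]

/-- The place `w` is centred at the point `(a, b)` of the `(x, y)`-plane. -/
structure Centred (x y : F) (a b : K) (w : Place K F) : Prop where
  hx : 0 < w.ord (x - algebraMap K F a)
  hy : 0 < w.ord (y - algebraMap K F b)

namespace Centred

variable {x y : F} {a b : K} {w : Place K F} (hw : Centred x y a b w)

include hw

theorem x_mem : x ∈ w.toValuationSubring := by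
  have h1 : x - algebraMap K F a ∈ w.toValuationSubring := mem_of_ord_nonneg w hw.hx.le
  have := add_mem h1 (w.algebraMap_mem' a)
  simpa using this

theorem y_mem : y ∈ w.toValuationSubring := by
  have h1 : y - algebraMap K F b ∈ w.toValuationSubring := mem_of_ord_nonneg w hw.hy.le
  have := add_mem h1 (w.algebraMap_mem' b)
  simpa using this

theorem t_ne_zero : x - algebraMap K F a ≠ 0 := by
  intro h
  have := hw.hx
  rw [h, Place.ord_zero] at this
  exact lt_irrefl _ this

/-- `x` as an element of the valuation ring. -/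
def xO : w.toValuationSubring := ⟨x, hw.x_mem⟩

/-- `y` as an element of the valuation ring. -/
def yO : w.toValuationSubring := ⟨y, hw.y_mem⟩

/-- Evaluation at `(x, y)` with values in the valuation ring of `w`. -/
def evO : K[X][Y] →ₐ[K] w.toValuationSubring := aevalAeval hw.xO hw.yO

theorem coe_evO (P : K[X][Y]) :
    ((hw.evO P : w.toValuationSubring) : F) = P.aevalAeval x y := by
  have h : (IsScalarTower.toAlgHom K w.toValuationSubring F).comp hw.evO = aevalAeval x y := by
    apply (aevalAevalEquiv K F).symm.injective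
    simp [evO, xO, yO]
  exact congr($h P)

theorem t_mem : hw.xO - algebraMap K w.toValuationSubring a ∈
    IsLocalRing.maximalIdeal w.toValuationSubring := by
  rw [mem_maximalIdeal_iff]
  right
  exact hw.hx

theorem s_mem : hw.yO - algebraMap K w.toValuationSubring b ∈
    IsLocalRing.maximalIdeal w.toValuationSubring := by
  rw [mem_maximalIdeal_iff]
  right
  exact hw.hy

/-- The value of `evO` on a first order Taylor expansion. -/
theorem evO_taylor (c : K) (q : K[X]) (P₂ : K[X][Y]) :
    hw.evO (C (C c) + C ((X - C a) * q) + (Y - C (C b)) * P₂) =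
      algebraMap K w.toValuationSubring c +
        ((hw.xO - algebraMap K w.toValuationSubring a) * aeval hw.xO q +
          (hw.yO - algebraMap K w.toValuationSubring b) * hw.evO P₂) := by
  simp [evO, add_assoc]

theorem rest_mem (q : K[X]) (P₂ : K[X][Y]) :
    (hw.xO - algebraMap K w.toValuationSubring a) * aeval hw.xO q +
      (hw.yO - algebraMap K w.toValuationSubring b) * hw.evO P₂ ∈
        IsLocalRing.maximalIdeal w.toValuationSubring :=
  Ideal.add_mem _ (Ideal.mul_mem_right _ _ hw.t_mem) (Ideal.mul_mem_right _ _ hw.s_mem)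

theorem algebraMap_notMem {c : K} (hc : c ≠ 0) :
    algebraMap K w.toValuationSubring c ∉ IsLocalRing.maximalIdeal w.toValuationSubring :=
  IsLocalRing.notMem_maximalIdeal.mpr ((isUnit_iff_ne_zero.mpr hc).map _)

/-- A polynomial vanishing at `(x, y)` modulo the maximal ideal vanishes at `(a, b)`. -/
theorem evalEval_eq_zero_of_mem {P : K[X][Y]}
    (h : hw.evO P ∈ IsLocalRing.maximalIdeal w.toValuationSubring) : P.evalEval a b = 0 := by
  obtain ⟨q, P₂, hdec, -⟩ := exists_taylor_one P a b
  by_contra hc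
  apply hw.algebraMap_notMem hc
  have h1 := hw.evO_taylor (P.evalEval a b) q P₂
  rw [← hdec] at h1
  have h2 : algebraMap K w.toValuationSubring (P.evalEval a b) = hw.evO P -
      ((hw.xO - algebraMap K w.toValuationSubring a) * aeval hw.xO q +
        (hw.yO - algebraMap K w.toValuationSubring b) * hw.evO P₂) := by
    rw [h1]; ring
  rw [h2]
  exact Ideal.sub_mem _ h (hw.rest_mem q P₂)

/-- A polynomial relation between `x` and `y` holds at the centre `(a, b)` of a place. -/
theorem evalEval_eq_zero {Φ : K[X][Y]} (hΦ : Φ.aevalAeval x y = 0) : Φ.evalEval a b = 0 := by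
  apply hw.evalEval_eq_zero_of_mem
  have : hw.evO Φ = 0 := Subtype.ext (by rw [hw.coe_evO, hΦ]; rfl)
  rw [this]
  exact Ideal.zero_mem _

/-- **Units**: `U(x, y)` is a unit at `w` if `U(a, b) ≠ 0`. -/
theorem isUnit_evO {U : K[X][Y]} (hU : U.evalEval a b ≠ 0) : IsUnit (hw.evO U) := by
  rw [← IsLocalRing.notMem_maximalIdeal]
  exact fun h => hU (hw.evalEval_eq_zero_of_mem h)

theorem ev_ne_zero {U : K[X][Y]} (hU : U.evalEval a b ≠ 0) : U.aevalAeval x y ≠ 0 := by
  rw [← hw.coe_evO]
  intro h
  exact (hw.isUnit_evO hU).ne_zero (Subtype.ext h)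

theorem ord_ev_unit {U : K[X][Y]} (hU : U.evalEval a b ≠ 0) : w.ord (U.aevalAeval x y) = 0 := by
  rw [← hw.coe_evO]
  obtain ⟨u, hu⟩ := hw.isUnit_evO hU
  rw [← hu]
  exact w.ord_coe_unit u

theorem ord_ev_nonneg (P : K[X][Y]) : 0 ≤ w.ord (P.aevalAeval x y) := by
  rw [← hw.coe_evO]
  exact ord_nonneg_of_mem w (hw.evO P).2

end Centred

end Place

/-! ### The relation, the key lemma and the conclusion -/

section Main

variable {K F : Type*} [Field K] [Field F] [Algebra K F]
variable {x y : F} {a b : K}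

/-- The value of `ev = aevalAeval x y` on a first order Taylor expansion. -/
theorem ev_taylor (c : K) (q : K[X]) (P₂ : K[X][Y]) :
    (C (C c) + C ((X - C a) * q) + (Y - C (C b)) * P₂).aevalAeval x y =
      algebraMap K F c +
        ((x - algebraMap K F a) * aeval x q + (y - algebraMap K F b) * P₂.aevalAeval x y) := by
  simp [add_assoc]

/-- The relation `s · B(x, y) = - t · q(x)` with `B(a, b) = ∂Φ/∂Y (a, b)`. -/
theorem exists_relation {v : Place K F} (hv : Centred x y a b v) (Φ : K[X][Y])
    (hΦ : Φ.aevalAeval x y = 0) (hsm : (derivative Φ).evalEval a b ≠ 0) :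
    ∃ (q : K[X]) (B : K[X][Y]), B.evalEval a b ≠ 0 ∧
      (y - algebraMap K F b) * B.aevalAeval x y = -((x - algebraMap K F a) * aeval x q) := by
  obtain ⟨q, B, hdec, hB⟩ := exists_taylor_one Φ a b
  have h0 : Φ.evalEval a b = 0 := hv.evalEval_eq_zero hΦ
  refine ⟨q, B, by rw [hB]; exact hsm, ?_⟩
  have h1 := ev_taylor (x := x) (y := y) (a := a) (b := b) (Φ.evalEval a b) q B
  rw [← hdec, hΦ, h0, map_zero, zero_add] at h1
  linear_combination -h1

/-- One step of the induction. -/
theorem step {v : Place K F} (hv : Centred x y a b v) {q : K[X]} {B : K[X][Y]}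
    (hB : B.evalEval a b ≠ 0)
    (hrel : (y - algebraMap K F b) * B.aevalAeval x y = -((x - algebraMap K F a) * aeval x q))
    (P : K[X][Y]) (hP0 : P.evalEval a b = 0) (hP : P.aevalAeval x y ≠ 0) :
    ∃ P' : K[X][Y], P.aevalAeval x y * B.aevalAeval x y =
        (x - algebraMap K F a) * P'.aevalAeval x y ∧
      P'.aevalAeval x y ≠ 0 ∧ v.ord (P'.aevalAeval x y) + 1 ≤ v.ord (P.aevalAeval x y) := by
  obtain ⟨q₁, P₂, hdec, -⟩ := exists_taylor_one P a b
  have h1 := ev_taylor (x := x) (y := y) (a := a) (b := b) (P.evalEval a b) q₁ P₂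
  rw [← hdec, hP0, map_zero, zero_add] at h1
  refine ⟨C q₁ * B - C q * P₂, ?_, ?_⟩
  · rw [map_sub, map_mul, map_mul, aevalAeval_C, aevalAeval_C, h1]
    linear_combination (P₂.aevalAeval x y) * hrel
  · have hrelP : P.aevalAeval x y * B.aevalAeval x y =
        (x - algebraMap K F a) * (C q₁ * B - C q * P₂).aevalAeval x y := by
      rw [map_sub, map_mul, map_mul, aevalAeval_C, aevalAeval_C, h1]
      linear_combination (P₂.aevalAeval x y) * hrel
    have hB0 : B.aevalAeval x y ≠ 0 := hv.ev_ne_zero hB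
    have hP' : (C q₁ * B - C q * P₂).aevalAeval x y ≠ 0 := by
      intro h0
      rw [h0, mul_zero] at hrelP
      exact mul_ne_zero hP hB0 hrelP
    refine ⟨hP', ?_⟩
    have hord := congrArg v.ord hrelP
    rw [v.ord_mul hP hB0, v.ord_mul hv.t_ne_zero hP', hv.ord_ev_unit hB] at hord
    have := hv.hx
    omega

/-- **Key lemma**: `P(x, y) = t ^ m · unit` for every `P` with `P(x, y) ≠ 0`, where the units are
values of polynomials not vanishing at `(a, b)`. -/
theorem key {v : Place K F} (hv : Centred x y a b v) {q : K[X]} {B : K[X][Y]}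
    (hB : B.evalEval a b ≠ 0)
    (hrel : (y - algebraMap K F b) * B.aevalAeval x y = -((x - algebraMap K F a) * aeval x q))
    (n : ℕ) : ∀ P : K[X][Y], P.aevalAeval x y ≠ 0 → v.ord (P.aevalAeval x y) < n →
      ∃ (m : ℕ) (U₁ U₂ : K[X][Y]), U₁.evalEval a b ≠ 0 ∧ U₂.evalEval a b ≠ 0 ∧
        P.aevalAeval x y * U₂.aevalAeval x y =
          (x - algebraMap K F a) ^ m * U₁.aevalAeval x y := by
  induction n with
  | zero =>
    intro P _ hlt
    have := hv.ord_ev_nonneg P
    simp only [Nat.cast_zero] at hlt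
    omega
  | succ n ih =>
    intro P hP hlt
    by_cases hc : P.evalEval a b = 0
    · obtain ⟨P', hrelP, hP', hord⟩ := step hv hB hrel P hc hP
      obtain ⟨m, U₁, U₂, hU₁, hU₂, hm⟩ := ih P' hP' (by push_cast at hlt; omega)
      refine ⟨m + 1, U₁, B * U₂, hU₁, ?_, ?_⟩
      · rw [evalEval_mul]
        exact mul_ne_zero hB hU₂
      · rw [map_mul, ← mul_assoc, hrelP, mul_assoc, hm, pow_succ]
        ring
    · refine ⟨0, P, 1, hc, ?_, ?_⟩
      · rw [evalEval_one]
        exact one_ne_zero
      · rw [map_one, mul_one, pow_zero, one_mul]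

/-- The order of `P(x, y)` at any place centred at `(a, b)`. -/
theorem ord_eq_of_key {w : Place K F} (hw : Centred x y a b w) {P U₁ U₂ : K[X][Y]} {m : ℕ}
    (hU₁ : U₁.evalEval a b ≠ 0) (hU₂ : U₂.evalEval a b ≠ 0) (hP : P.aevalAeval x y ≠ 0)
    (h : P.aevalAeval x y * U₂.aevalAeval x y =
      (x - algebraMap K F a) ^ m * U₁.aevalAeval x y) :
    w.ord (P.aevalAeval x y) = m * w.ord (x - algebraMap K F a) := by
  have hord := congrArg w.ord h
  rw [w.ord_mul hP (hw.ev_ne_zero hU₂), w.ord_mul (pow_ne_zero _ hw.t_ne_zero)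
    (hw.ev_ne_zero hU₁), hw.ord_ev_unit hU₁, hw.ord_ev_unit hU₂, ord_pow] at hord
  omega

/-- Every element of `K(x, y)` is a quotient of values of polynomials. -/
theorem exists_div_of_adjoin (hxy : IntermediateField.adjoin K {x, y} = ⊤) (f : F) :
    ∃ G H : K[X][Y], f = G.aevalAeval x y / H.aevalAeval x y := by
  have hf : f ∈ IntermediateField.adjoin K {x, y} := by rw [hxy]; exact IntermediateField.mem_top
  obtain ⟨r, hr, s, hs, rfl⟩ := IntermediateField.mem_adjoin_iff_div.mp hf
  have hle : Algebra.adjoin K {x, y} ≤ (aevalAeval x y : K[X][Y] →ₐ[K] F).range := by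
    apply Algebra.adjoin_le
    rintro z (rfl | rfl)
    · exact ⟨C X, aevalAeval_X _ _⟩
    · exact ⟨Y, aevalAeval_Y _ _⟩
  obtain ⟨G, rfl⟩ := hle hr
  obtain ⟨H, rfl⟩ := hle hs
  exact ⟨G, H, rfl⟩

end Main

/-- **(AP-abs)**: a point `(a, b)` of the plane model `Φ(x, y) = 0` of `F = K(x, y)` with
`∂Φ/∂Y (a, b) ≠ 0` carries at most one place. -/
theorem apAbs (K F : Type*) [Field K] [Field F] [Algebra K F] : APAbs K F := by
  intro x y hxy Φ hΦ a b hsm v w hva hvb hwa hwb
  have hv : Centred x y a b v := ⟨hva, hvb⟩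
  have hw : Centred x y a b w := ⟨hwa, hwb⟩
  obtain ⟨q, B, hB, hrel⟩ := exists_relation hv Φ hΦ hsm
  apply Place.ext
  ext f
  by_cases hf : f = 0
  · subst hf
    simp only [zero_mem]
  obtain ⟨G, H, rfl⟩ := exists_div_of_adjoin hxy f
  have hG : G.aevalAeval x y ≠ 0 := fun h => hf (by rw [h, zero_div])
  have hH : H.aevalAeval x y ≠ 0 := fun h => hf (by rw [h, div_zero])
  obtain ⟨m₁, U₁, U₂, hU₁, hU₂, h₁⟩ := key hv hB hrel ((v.ord (G.aevalAeval x y)).toNat + 1) G hG
    (by push_cast; omega)
  obtain ⟨m₂, V₁, V₂, hV₁, hV₂, h₂⟩ := key hv hB hrel ((v.ord (H.aevalAeval x y)).toNat + 1) H hH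
    (by push_cast; omega)
  have key_iff : ∀ u : Place K F, Centred x y a b u →
      (G.aevalAeval x y / H.aevalAeval x y ∈ u.toValuationSubring ↔ m₂ ≤ m₁) := by
    intro u hu
    rw [mem_iff_ord_nonneg]
    simp only [hf, false_or]
    rw [div_eq_mul_inv, u.ord_mul hG (inv_ne_zero hH), u.ord_inv,
      ord_eq_of_key hu hU₁ hU₂ hG h₁, ord_eq_of_key hu hV₁ hV₂ hH h₂]
    have hpos := hu.hx
    constructor
    · intro h
      by_contra hlt
      rw [not_le] at hlt
      have h3 : ((m₁ : ℤ) + 1) ≤ m₂ := by exact_mod_cast hlt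
      nlinarith
    · intro h
      have h3 : (m₂ : ℤ) ≤ m₁ := by exact_mod_cast h
      nlinarith
  rw [key_iff v hv, key_iff w hw]

end Fermat.Agent.MAZ.SmoothPt61.APElem
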