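/-
Programme MAZ (S15), row 710 (F-D2'), parts (AP) + (GF), UNCONDITIONAL statements  [helper61].

* `unique_place_of_smooth`: a smooth point `(a, b) ∈ ℚbar²` of the plane model `Φ_p(j, j_p) = 0`
  of `X₀(p)` carries at most one place of `FF p`;
* `galois_fixed`: a place of `FF p` centred at a smooth RATIONAL point of the plane model is fixed
  by the arithmetic Galois action of `Gal(ℚbar/ℚ)`;
* `galois_fixed'`: the same with the smoothness hypothesis over `ℚ` in one-variable form
  (`b` is a simple root of `Φ_p(a, Y)` or `a` is a simple root of `Φ_p(X, b)`);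
* `galois_fixed_rat`: the same with the smoothness hypothesis over `ℚ` in `evalEval`/`swap` form
  (the output shape of `NP58.smooth_of_phiShape`);
* `evalEval_eq_zero_of_values`: the centre `(a, b)` of a place lies on the plane model;
* `galois_fixed_of_phiShape`: **(D2')** if `Φ_p` has the Newton shape `NP58.PhiShape` and
  `v₂(a) < 0`, every place centred at a rational point `(a, b)` is Galois-fixed.
-/
import Mathlib
import Fermat.Agent.MAZ.SmoothPt61.Main
import Fermat.Agent.MAZ.SmoothPt61.APElem
import Fermat.Agent.MAZ.NP58.Newton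

set_option autoImplicit false

open Polynomial AlgebraicCurve ModularCurve
open Fermat.Agent.X0
open scoped Polynomial.Bivariate

noncomputable section

namespace Fermat.Agent.MAZ.SmoothPt61

variable (p : ℕ) [NeZero p]

/-- **(AP)** for `X₀(p)`: at most one place over a smooth point of the plane model. -/
theorem unique_place_of_smooth (hp : p.Prime) (data : ModularPolynomialData p) (a b : Kbar)
    (hsm : (derivative (PhiK p data)).evalEval a b ≠ 0 ∨
      (derivative (Bivariate.swap (PhiK p data))).evalEval b a ≠ 0)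
    (v w : Place Kbar (FF p))
    (hva : 0 < v.ord (jF p - algebraMap Kbar (FF p) a))
    (hvb : 0 < v.ord (jpF p - algebraMap Kbar (FF p) b))
    (hwa : 0 < w.ord (jF p - algebraMap Kbar (FF p) a))
    (hwb : 0 < w.ord (jpF p - algebraMap Kbar (FF p) b)) : v = w :=
  (APElem.apAbs Kbar (FF p)).both (jF p) (jpF p) (adjoin_jF_jpF p hp) (PhiK p data)
    (aevalAeval_PhiK p data) a b hsm v w hva hvb hwa hwb

/-- **(GF)**: a place of `FF p` centred at a smooth rational point `(a, b)` of the plane model
`Φ_p(j, j_p) = 0` is fixed by the arithmetic Galois action. -/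
theorem galois_fixed (hp : p.Prime) (data : ModularPolynomialData p) (a b : ℚ)
    (hsm : (derivative (PhiK p data)).evalEval (algebraMap ℚ Kbar a) (algebraMap ℚ Kbar b) ≠ 0 ∨
      (derivative (Bivariate.swap (PhiK p data))).evalEval
        (algebraMap ℚ Kbar b) (algebraMap ℚ Kbar a) ≠ 0)
    (w : Place Kbar (FF p))
    (hwa : 0 < w.ord (jF p - algebraMap Kbar (FF p) (algebraMap ℚ Kbar a)))
    (hwb : 0 < w.ord (jpF p - algebraMap Kbar (FF p) (algebraMap ℚ Kbar b)))
    (σ : Kbar ≃ₐ[ℚ] Kbar) :
    arithmeticGalois (modularFunctionFieldFull p) σ • w = w :=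
  galois_fixed_of_smooth p (APElem.apAbs Kbar (FF p)) hp data a b hsm w hwa hwb σ

/-- **(GF)**, smoothness over `ℚ` in one-variable form. -/
theorem galois_fixed' (hp : p.Prime) (data : ModularPolynomialData p) (a b : ℚ)
    (hsm : (derivative ((PhiQ p data).map (evalRingHom a))).eval b ≠ 0 ∨
      (derivative ((PhiQ p data).eval (C b))).eval a ≠ 0)
    (w : Place Kbar (FF p))
    (hwa : 0 < w.ord (jF p - algebraMap Kbar (FF p) (algebraMap ℚ Kbar a)))
    (hwb : 0 < w.ord (jpF p - algebraMap Kbar (FF p) (algebraMap ℚ Kbar b)))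
    (σ : Kbar ≃ₐ[ℚ] Kbar) :
    arithmeticGalois (modularFunctionFieldFull p) σ • w = w :=
  galois_fixed_of_simple_root p (APElem.apAbs Kbar (FF p)) hp data a b hsm w hwa hwb σ

/-- **(GF)**, smoothness over `ℚ` in `evalEval`/`swap` form. -/
theorem galois_fixed_rat (hp : p.Prime) (data : ModularPolynomialData p) (a b : ℚ)
    (hsm : (derivative (PhiQ p data)).evalEval a b ≠ 0 ∨
      (derivative (Bivariate.swap (PhiQ p data))).evalEval b a ≠ 0)
    (w : Place Kbar (FF p))
    (hwa : 0 < w.ord (jF p - algebraMap Kbar (FF p) (algebraMap ℚ Kbar a)))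
    (hwb : 0 < w.ord (jpF p - algebraMap Kbar (FF p) (algebraMap ℚ Kbar b)))
    (σ : Kbar ≃ₐ[ℚ] Kbar) :
    arithmeticGalois (modularFunctionFieldFull p) σ • w = w := by
  rw [derivative_evalEval_eq, derivative_swap_evalEval_eq] at hsm
  exact galois_fixed' p hp data a b hsm w hwa hwb σ

/-- The centre `(a, b)` of a place of `FF p` lies on the plane model `Φ_p = 0` (over `ℚbar`). -/
theorem evalEval_PhiK_eq_zero (data : ModularPolynomialData p) (a b : Kbar)
    (w : Place Kbar (FF p))
    (hwa : 0 < w.ord (jF p - algebraMap Kbar (FF p) a))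
    (hwb : 0 < w.ord (jpF p - algebraMap Kbar (FF p) b)) :
    (PhiK p data).evalEval a b = 0 :=
  (APElem.Centred.mk hwa hwb : APElem.Centred (jF p) (jpF p) a b w).evalEval_eq_zero
    (aevalAeval_PhiK p data)

/-- The centre `(a, b)` of a place of `FF p`, if rational, lies on the plane model `Φ_p = 0`
(over `ℚ`). -/
theorem evalEval_eq_zero_of_values (data : ModularPolynomialData p) (a b : ℚ)
    (w : Place Kbar (FF p))
    (hwa : 0 < w.ord (jF p - algebraMap Kbar (FF p) (algebraMap ℚ Kbar a)))
    (hwb : 0 < w.ord (jpF p - algebraMap Kbar (FF p) (algebraMap ℚ Kbar b))) :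
    (PhiQ p data).evalEval a b = 0 := by
  have h := evalEval_PhiK_eq_zero p data _ _ w hwa hwb
  rw [PhiK_eq_map, map_mapRingHom_evalEval] at h
  exact (map_eq_zero (algebraMap ℚ Kbar)).mp h

/-- **(D2')**: if the modular polynomial has the Newton shape `NP58.PhiShape` and `v₂(a) < 0`,
every place of `FF p` centred at a rational point `(a, b)` is fixed by `Gal(ℚbar/ℚ)`. -/
theorem galois_fixed_of_phiShape (hp : p.Prime) (hp2 : p ≠ 2) (data : ModularPolynomialData p)
    (hΦ : NP58.PhiShape p data.Φ) (a b : ℚ) (ha : 1 < Rat.padicValuation 2 a)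
    (w : Place Kbar (FF p))
    (hwa : 0 < w.ord (jF p - algebraMap Kbar (FF p) (algebraMap ℚ Kbar a)))
    (hwb : 0 < w.ord (jpF p - algebraMap Kbar (FF p) (algebraMap ℚ Kbar b)))
    (σ : Kbar ≃ₐ[ℚ] Kbar) :
    arithmeticGalois (modularFunctionFieldFull p) σ • w = w :=
  galois_fixed_rat p hp data a b
    (NP58.smooth_of_phiShape hp.two_le (hp.odd_of_ne_two hp2) hΦ ha
      (evalEval_eq_zero_of_values p data a b w hwa hwb)) w hwa hwb σ

end Fermat.Agent.MAZ.SmoothPt61
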