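/-
Programme MAZ (S15), row 710 (F-D2') COMPLETE  [helper61; inputs: helper58 (NP58/Newton),
helper18 (NPPhi18/Shape), helper61 (SmoothPt61/{Main, APElem, Final, Data})].

* `exists_data_phiShape`: for `p` prime there is `data : ModularPolynomialData p` whose polynomial
  has the Newton shape `NP58.PhiShape p data.Φ`;
* `galois_fixed_of_val2`: **(D2')**, data-free: for an odd prime `p`, every place of
  `FF p = modularFunctionFieldBar p` centred at a RATIONAL point `(j, j_p) = (a, b)` with
  `v₂(a) < 0` is fixed by the arithmetic Galois action of `Gal(ℚbar/ℚ)`.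
-/
import Mathlib
import Fermat.Agent.MAZ.SmoothPt61.Final
import Fermat.Agent.MAZ.SmoothPt61.Data
import Fermat.Agent.MAZ.NPPhi18.Shape

set_option autoImplicit false

open Polynomial AlgebraicCurve ModularCurve
open Fermat.Agent.X0

noncomputable section

namespace Fermat.Agent.MAZ.SmoothPt61

variable (p : ℕ) [NeZero p]

/-- **(NP-Phi)**: the modular polynomial of prime level has the Newton shape. -/
theorem exists_data_phiShape (hp : p.Prime) :
    ∃ data : ModularPolynomialData p, NP58.PhiShape p data.Φ := by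
  obtain ⟨data, h⟩ := exists_data p hp
  exact ⟨data, NPPhi18.phiShape_of_map_eq p hp.two_le data.Φ h⟩

/-- **(D2')**: for an odd prime `p`, a place of `FF p` centred at a rational point
`(j, j_p) = (a, b)` with `v₂(a) < 0` is fixed by `Gal(ℚbar/ℚ)`. -/
theorem galois_fixed_of_val2 (hp : p.Prime) (hp2 : p ≠ 2) (a b : ℚ)
    (ha : 1 < Rat.padicValuation 2 a) (w : Place Kbar (FF p))
    (hwa : 0 < w.ord (jF p - algebraMap Kbar (FF p) (algebraMap ℚ Kbar a)))
    (hwb : 0 < w.ord (jpF p - algebraMap Kbar (FF p) (algebraMap ℚ Kbar b)))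
    (σ : Kbar ≃ₐ[ℚ] Kbar) :
    arithmeticGalois (modularFunctionFieldFull p) σ • w = w := by
  obtain ⟨data, hΦ⟩ := exists_data_phiShape p hp
  exact galois_fixed_of_phiShape p hp hp2 data hΦ a b ha w hwa hwb σ

end Fermat.Agent.MAZ.SmoothPt61
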